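import Mathlib
import Fermat.Agent.LT.T1.Closed
import Fermat.Agent.LT.T2.H472.LocCont
import Fermat.Agent.LT.T7.H62.RigidWhit

/-!
# Row LT, tower T7, leaf T7.14.6b.4 `Rigid.WhitInheritC` (helper878, spare of row 1831)

OFF-MAIN.  The Whittaker function `W_φ(g) = ∫_D φ(n(x) g) ψ̄(x) dν(x)` of an `S`-form is
continuous, bounded, `(N, ψ)`-equivariant on the left, right invariant under the positive scalars
and the unitary groups at the infinite places, and has the mean-value property of parameter `0`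
at the complex places:

`whitInheritC878 (K) : Fermat.Agent.LT.T7.Rigid.WhitInheritC K`, unconditional.

The three analytic steps are the proofs of the leaves T2.10.08.01 (helper8, `WhEquiv.lean`),
T2.10.08.02 (helper264, `WhCont.lean`) and T2.10.08.03 (helper600, `WhMean.lean`), run again for
a standard character without the hypotheses `IsNonDeg`, `IsUnramAE` of `H941.IsWhitData` (which
those proofs do not use).  Input: `T1.t1Out` (tower T1, helper54; only the second countability
of `GL₂(𝔸_K)`), `locCont472` (helper472).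
-/

set_option autoImplicit false
set_option linter.style.haveILetI false

open AutomorphicForm IsDedekindDomain NumberField MeasureTheory
open scoped ComplexConjugate

noncomputable section

namespace Fermat.Agent.LT.T7.H878

open Fermat.Agent.LT.H556 Fermat.Agent.LT.H556.A0 Fermat.Agent.LT.T7
open Fermat.Agent.LT

variable {K : Type} [Field K] [NumberField K]

/-! ## 1. The unipotent elements -/

/-- The rational unipotent element `n(ξ) = [[1, ξ], [0, 1]]` of `GL₂(K)`. -/
def unipK878 (ξ : K) : GL (Fin 2) K :=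
  ⟨!![1, ξ; 0, 1], !![1, -ξ; 0, 1],
    by ext i j; fin_cases i <;> fin_cases j <;> simp [Matrix.mul_apply, Fin.sum_univ_two],
    by ext i j; fin_cases i <;> fin_cases j <;> simp [Matrix.mul_apply, Fin.sum_univ_two]⟩

/-- `n(emb ξ)` is the image of the rational unipotent element. -/
theorem map_unipK878 (ξ : K) :
    Matrix.GeneralLinearGroup.map (algebraMap K (Adl K)) (unipK878 ξ)
      = T3.unip K (algebraMap K (Adl K) ξ) := by
  apply Units.ext
  ext i j
  fin_cases i <;> fin_cases j <;>
    simp [T3.unip, unipK878, Matrix.GeneralLinearGroup.map]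

/-- `n(x + y) = n(x) n(y)`. -/
theorem unip_add878 (x y : Adl K) : T3.unip K (x + y) = T3.unip K x * T3.unip K y := by
  apply Units.ext
  ext i j
  fin_cases i <;> fin_cases j <;>
    simp [T3.unip, Matrix.mul_apply, Fin.sum_univ_two, add_comm]

/-- `x ↦ n(x)` is continuous. -/
theorem continuous_unip878 : Continuous (T3.unip K) := by
  rw [Units.continuous_iff]
  constructor
  · refine continuous_matrix fun i j => ?_
    fin_cases i <;> fin_cases j
    · exact continuous_const
    · exact continuous_id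
    · exact continuous_const
    · exact continuous_const
  · refine continuous_matrix fun i j => ?_
    fin_cases i <;> fin_cases j
    · exact continuous_const
    · exact continuous_neg
    · exact continuous_const
    · exact continuous_const

/-! ## 2. An abstract Fubini lemma (helper600, `fubini_rect600`) -/

/-- Fubini for a bounded continuous function on `X × ℝ × ℝ`, finite measure on `X`, rectangle
in `ℝ × ℝ`. -/
theorem fubini_rect878 {X : Type} [TopologicalSpace X] [MeasurableSpace X]
    [OpensMeasurableSpace X] (μ : Measure X) [IsFiniteMeasure μ]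
    (F : X → ℝ → ℝ → ℂ)
    (hF : Continuous fun q : (ℝ × ℝ) × X => F q.2 q.1.1 q.1.2)
    (C : ℝ) (hC : ∀ x a b, ‖F x a b‖ ≤ C) {a₁ a₂ b₁ b₂ : ℝ} (ha : a₁ ≤ a₂) (hb : b₁ ≤ b₂) :
    (∫ α in a₁..a₂, ∫ β in b₁..b₂, ∫ x, F x α β ∂μ)
      = ∫ x, (∫ α in a₁..a₂, ∫ β in b₁..b₂, F x α β) ∂μ := by
  set μα : Measure ℝ := volume.restrict (Set.Ioc a₁ a₂) with hμα
  set μβ : Measure ℝ := volume.restrict (Set.Ioc b₁ b₂) with hμβ
  have : IsFiniteMeasure μα := ⟨by rw [hμα, Measure.restrict_apply_univ]; simp⟩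
  have : IsFiniteMeasure μβ := ⟨by rw [hμβ, Measure.restrict_apply_univ]; simp⟩
  have hmeas : AEStronglyMeasurable (fun q : (ℝ × ℝ) × X => F q.2 q.1.1 q.1.2)
      ((μα.prod μβ).prod μ) := hF.aestronglyMeasurable
  have hint : Integrable (fun q : (ℝ × ℝ) × X => F q.2 q.1.1 q.1.2) ((μα.prod μβ).prod μ) :=
    Integrable.of_bound hmeas C (Filter.Eventually.of_forall fun q => hC _ _ _)
  have hslice : ∀ x : X, Integrable (fun p : ℝ × ℝ => F x p.1 p.2) (μα.prod μβ) := by
    intro x
    have hc : Continuous fun p : ℝ × ℝ => F x p.1 p.2 :=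
      hF.comp (Continuous.prodMk continuous_id continuous_const)
    exact Integrable.of_bound hc.aestronglyMeasurable C
      (Filter.Eventually.of_forall fun p => hC _ _ _)
  have hI : Integrable (fun p : ℝ × ℝ => ∫ x, F x p.1 p.2 ∂μ) (μα.prod μβ) :=
    hint.integral_prod_left
  calc (∫ α in a₁..a₂, ∫ β in b₁..b₂, ∫ x, F x α β ∂μ)
      = ∫ α, ∫ β, (∫ x, F x α β ∂μ) ∂μβ ∂μα := by
        rw [intervalIntegral.integral_of_le ha]
        refine integral_congr_ae (Filter.Eventually.of_forall fun α => ?_)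
        exact intervalIntegral.integral_of_le hb
    _ = ∫ p, (∫ x, F x p.1 p.2 ∂μ) ∂(μα.prod μβ) := (integral_prod _ hI).symm
    _ = ∫ x, (∫ p, F x p.1 p.2 ∂(μα.prod μβ)) ∂μ :=
        integral_integral_swap (f := fun (p : ℝ × ℝ) (x : X) => F x p.1 p.2) hint
    _ = ∫ x, (∫ α in a₁..a₂, ∫ β in b₁..b₂, F x α β) ∂μ := by
        refine integral_congr_ae (Filter.Eventually.of_forall fun x => ?_)
        show (∫ p, F x p.1 p.2 ∂(μα.prod μβ)) = ∫ α in a₁..a₂, ∫ β in b₁..b₂, F x α β
        rw [integral_prod _ (hslice x), intervalIntegral.integral_of_le ha]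
        refine integral_congr_ae (Filter.Eventually.of_forall fun α => ?_)
        exact (intervalIntegral.integral_of_le hb).symm

theorem continuous_rotZ_w878 : Continuous rotZ := by
  refine continuous_matrix fun i j => ?_
  fin_cases i <;> fin_cases j <;> simp [rotZ] <;> fun_prop

theorem continuous_rotY_w878 : Continuous rotY := by
  refine continuous_matrix fun i j => ?_
  fin_cases i <;> fin_cases j <;> simp [rotY] <;> fun_prop

/-- The family `Y` of `A0.MeanValueComplex` is jointly continuous. -/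
theorem continuous_family878 (w : InfinitePlace K) (d : ℝ) (Y : ℝ → ℝ → G K)
    (hY : ∀ α β : ℝ, IsLocalAtInf w (Y α β) ∧ infComp w (Y α β) = rotZ α * rotY β * torus d) :
    Continuous fun p : ℝ × ℝ => Y p.1 p.2 := by
  refine T2.H472.locCont472 K w (ℝ × ℝ) (fun p => Y p.1 p.2) (fun p => (hY p.1 p.2).1) ?_
  intro i j
  have h1 : Continuous fun p : ℝ × ℝ => rotZ p.1 * rotY p.2 * torus d :=
    ((continuous_rotZ_w878.comp continuous_fst).matrix_mul
      (continuous_rotY_w878.comp continuous_snd)).matrix_mul continuous_const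
  have h2 : (fun p : ℝ × ℝ => infComp w (Y p.1 p.2) i j)
      = fun p : ℝ × ℝ => (rotZ p.1 * rotY p.2 * torus d) i j := by
    funext p
    rw [(hY p.1 p.2).2]
  rw [h2]
  exact h1.matrix_elem i j

/-! ## 3. The Whittaker function -/

section whit

variable [MeasurableSpace (Adl K)] [BorelSpace (Adl K)]

/-- **Equivariance** (helper8, T2.10.08.01): `W(n(a) g) = ψ(a) W(g)`. -/
theorem whit_equiv878 {ψ : AddChar (Adl K) Circle} (hψ : T3.IsStdChar K ψ)
    {ν : Measure (Adl K)} [ν.IsAddHaarMeasure] {D : Set (Adl K)}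
    (hD : IsAddFundamentalDomain ((algebraMap K (Adl K)).toAddMonoidHom.range) D ν)
    {Φ : G K → ℂ}
    (hΦ : ∀ (γ : GL (Fin 2) K) (g : G K),
      Φ (Matrix.GeneralLinearGroup.map (algebraMap K (Adl K)) γ * g) = Φ g)
    (a : Adl K) (g : G K) :
    Rigid.whit ψ ν D Φ (T3.unip K a * g) = ((ψ a : Circle) : ℂ) * Rigid.whit ψ ν D Φ g := by
  haveI : Countable ((algebraMap K (Adl K)).toAddMonoidHom.range) := by
    have : Countable K := Finsupp.Countable.of_moduleFinite (R := ℚ) (M := K)
    exact (AddMonoidHom.rangeRestrict_surjective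
      ((algebraMap K (Adl K)).toAddMonoidHom)).countable
  set F : Adl K → ℂ := fun x => Φ (T3.unip K x * g) * conj ((ψ x : Circle) : ℂ) with hF
  have hFper : ∀ (ξ : (algebraMap K (Adl K)).toAddMonoidHom.range) (x : Adl K),
      F (ξ +ᵥ x) = F x := by
    rintro ⟨ξ, k, rfl⟩ x
    have h1 : (⟨(algebraMap K (Adl K)).toAddMonoidHom k, ⟨k, rfl⟩⟩ :
        (algebraMap K (Adl K)).toAddMonoidHom.range) +ᵥ x = algebraMap K (Adl K) k + x := rfl
    show Φ (T3.unip K (_ +ᵥ x) * g) * conj ((ψ (_ +ᵥ x) : Circle) : ℂ)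
      = Φ (T3.unip K x * g) * conj ((ψ x : Circle) : ℂ)
    rw [h1, unip_add878, ← map_unipK878, mul_assoc, hΦ, AddChar.map_add_eq_mul, hψ.triv k,
      one_mul]
  have hint : ∀ x : Adl K,
      Φ (T3.unip K x * (T3.unip K a * g)) * conj ((ψ x : Circle) : ℂ)
        = ((ψ a : Circle) : ℂ) * F (x + a) := by
    intro x
    have hn : ((ψ a : Circle) : ℂ) * conj ((ψ a : Circle) : ℂ) = 1 := by
      rw [Complex.mul_conj, Complex.normSq_eq_norm_sq, Circle.norm_coe]
      simp
    simp only [hF]
    rw [unip_add878, mul_assoc, AddChar.map_add_eq_mul, Circle.coe_mul, map_mul]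
    calc Φ (T3.unip K x * (T3.unip K a * g)) * conj ((ψ x : Circle) : ℂ)
        = Φ (T3.unip K x * (T3.unip K a * g)) * conj ((ψ x : Circle) : ℂ)
            * (((ψ a : Circle) : ℂ) * conj ((ψ a : Circle) : ℂ)) := by rw [hn, mul_one]
      _ = ((ψ a : Circle) : ℂ) * (Φ (T3.unip K x * (T3.unip K a * g))
            * (conj ((ψ x : Circle) : ℂ) * conj ((ψ a : Circle) : ℂ))) := by ring
  have hmp : MeasurePreserving (fun y : Adl K => y + (-a)) ν ν :=
    measurePreserving_add_right ν (-a)
  have hD' : IsAddFundamentalDomain ((algebraMap K (Adl K)).toAddMonoidHom.range)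
      ((fun y : Adl K => y + (-a)) ⁻¹' D) ν := by
    refine hD.preimage_of_equiv hmp.quasiMeasurePreserving (e := id) Function.bijective_id ?_
    intro ξ y
    change ((ξ : Adl K) + y) + (-a) = (ξ : Adl K) + (y + (-a))
    rw [add_assoc]
  have hemb : MeasurableEmbedding (fun y : Adl K => y + (-a)) :=
    (MeasurableEquiv.addRight (-a)).measurableEmbedding
  have hcv : ∫ y in D, F (y + a) ∂ν
      = ∫ x in (fun y : Adl K => y + (-a)) ⁻¹' D, F x ∂ν := by
    have h := hmp.setIntegral_preimage_emb hemb (fun y => F (y + a)) D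
    simp only [neg_add_cancel_right] at h
    exact h.symm
  unfold Rigid.whit
  calc ∫ x in D, Φ (T3.unip K x * (T3.unip K a * g)) * conj ((ψ x : Circle) : ℂ) ∂ν
      = ∫ x in D, ((ψ a : Circle) : ℂ) * F (x + a) ∂ν :=
        integral_congr_ae (Filter.Eventually.of_forall hint)
    _ = ((ψ a : Circle) : ℂ) * ∫ x in D, F (x + a) ∂ν := integral_const_mul _ _
    _ = ((ψ a : Circle) : ℂ) * ∫ x in (fun y : Adl K => y + (-a)) ⁻¹' D, F x ∂ν := by rw [hcv]
    _ = ((ψ a : Circle) : ℂ) * ∫ x in D, F x ∂ν := by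
        rw [hD'.setIntegral_eq hD hFper]

/-- **Continuity and bound** (helper264, T2.10.08.02). -/
theorem whit_cont878 [SecondCountableTopology (G K)] {ψ : AddChar (Adl K) Circle}
    (hψ : T3.IsStdChar K ψ) {ν : Measure (Adl K)} {D : Set (Adl K)} (hfin : ν D < ⊤)
    {Φ : G K → ℂ} (hΦ : Continuous Φ) {C : ℝ} (hC : ∀ g : G K, ‖Φ g‖ ≤ C) :
    Continuous (Rigid.whit ψ ν D Φ) ∧ ∀ g : G K, ‖Rigid.whit ψ ν D Φ g‖ ≤ C * (ν D).toReal := by
  haveI : IsFiniteMeasure (ν.restrict D) := ⟨by rw [Measure.restrict_apply_univ]; exact hfin⟩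
  have hψc : Continuous fun x : Adl K => (starRingEnd ℂ) ((ψ x : Circle) : ℂ) :=
    Complex.continuous_conj.comp (continuous_subtype_val.comp hψ.cont)
  have hnorm : ∀ (g : G K) (x : Adl K),
      ‖Φ (T3.unip K x * g) * (starRingEnd ℂ) ((ψ x : Circle) : ℂ)‖ ≤ C := by
    intro g x
    rw [norm_mul, RCLike.norm_conj, Circle.norm_coe, mul_one]
    exact hC _
  constructor
  · unfold Rigid.whit
    refine continuous_of_dominated (bound := fun _ => C) ?_ ?_ ?_ ?_
    · intro g
      refine Continuous.aestronglyMeasurable ?_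
      exact (hΦ.comp (continuous_unip878.mul continuous_const)).mul hψc
    · intro g
      exact Filter.Eventually.of_forall (hnorm g)
    · exact integrable_const C
    · refine Filter.Eventually.of_forall (fun x => ?_)
      exact (hΦ.comp (continuous_const.mul continuous_id)).mul continuous_const
  · intro g
    unfold Rigid.whit
    have h := norm_integral_le_of_norm_le_const (μ := ν.restrict D)
      (f := fun x => Φ (T3.unip K x * g) * (starRingEnd ℂ) ((ψ x : Circle) : ℂ)) (C := C)
      (Filter.Eventually.of_forall (hnorm g))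
    simpa [Measure.real, Measure.restrict_apply_univ] using h

/-- **Mean value** (helper600, T2.10.08.03): the mean value property passes from `Φ` to `W`. -/
theorem whit_mean878 {ψ : AddChar (Adl K) Circle} (hψ : T3.IsStdChar K ψ)
    {ν : Measure (Adl K)} {D : Set (Adl K)} (hfin : ν D < ⊤)
    {Φ : G K → ℂ} (hΦc : Continuous Φ) {C : ℝ} (hC : ∀ g : G K, ‖Φ g‖ ≤ C)
    {w : InfinitePlace K} (hMV : MeanValueComplex Φ w) :
    MeanValueComplex (Rigid.whit ψ ν D Φ) w := by
  intro d hd Y hY g
  have : IsFiniteMeasure (ν.restrict D) := ⟨by rw [Measure.restrict_apply_univ]; exact hfin⟩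
  have hYc := continuous_family878 w d Y hY
  have hψc : Continuous fun x : Adl K => ((ψ x : Circle) : ℂ) :=
    continuous_subtype_val.comp hψ.cont
  set F : Adl K → ℝ → ℝ → ℂ := fun x α β =>
    Φ (T3.unip K x * (g * Y α β)) * (starRingEnd ℂ) ((ψ x : Circle) : ℂ)
      * ((Real.sin β : ℝ) : ℂ) with hFdef
  have hFc : Continuous fun q : (ℝ × ℝ) × Adl K => F q.2 q.1.1 q.1.2 := by
    have h1 : Continuous fun q : (ℝ × ℝ) × Adl K => T3.unip K q.2 * (g * Y q.1.1 q.1.2) :=
      (continuous_unip878.comp continuous_snd).mul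
        (continuous_const.mul (hYc.comp continuous_fst))
    have h2 : Continuous fun q : (ℝ × ℝ) × Adl K =>
        (starRingEnd ℂ) ((ψ q.2 : Circle) : ℂ) :=
      Complex.continuous_conj.comp (hψc.comp continuous_snd)
    have h3 : Continuous fun q : (ℝ × ℝ) × Adl K => ((Real.sin q.1.2 : ℝ) : ℂ) :=
      Complex.continuous_ofReal.comp
        (Real.continuous_sin.comp (continuous_snd.comp continuous_fst))
    exact ((hΦc.comp h1).mul h2).mul h3
  have hFb : ∀ x a b, ‖F x a b‖ ≤ |C| := by
    intro x a b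
    simp only [hFdef, norm_mul, RCLike.norm_conj, Circle.norm_coe, mul_one,
      Complex.norm_real, Real.norm_eq_abs]
    calc ‖Φ (T3.unip K x * (g * Y a b))‖ * |Real.sin b|
        ≤ |C| * 1 := by
          refine mul_le_mul ((hC _).trans (le_abs_self C)) (Real.abs_sin_le_one b)
            (abs_nonneg _) (abs_nonneg _)
      _ = |C| := mul_one _
  have hswap := fubini_rect878 (ν.restrict D) F hFc |C| hFb
    (a₁ := 0) (a₂ := 2 * Real.pi) (b₁ := 0) (b₂ := Real.pi)
    (by positivity) Real.pi_pos.le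
  have hL : (∫ α in (0 : ℝ)..(2 * Real.pi), ∫ β in (0 : ℝ)..Real.pi,
        Rigid.whit ψ ν D Φ (g * Y α β) * ((Real.sin β : ℝ) : ℂ))
      = ∫ α in (0 : ℝ)..(2 * Real.pi), ∫ β in (0 : ℝ)..Real.pi,
          ∫ x, F x α β ∂(ν.restrict D) := by
    refine intervalIntegral.integral_congr fun α _ => ?_
    refine intervalIntegral.integral_congr fun β _ => ?_
    show Rigid.whit ψ ν D Φ (g * Y α β) * ((Real.sin β : ℝ) : ℂ)
      = ∫ x, F x α β ∂(ν.restrict D)
    rw [Rigid.whit, ← integral_mul_const]
  have hR : ∀ x : Adl K, (∫ α in (0 : ℝ)..(2 * Real.pi), ∫ β in (0 : ℝ)..Real.pi, F x α β)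
      = ((4 * Real.pi * (d / Real.sinh d) : ℝ) : ℂ)
          * (Φ (T3.unip K x * g) * (starRingEnd ℂ) ((ψ x : Circle) : ℂ)) := by
    intro x
    have h := hMV d hd Y hY (T3.unip K x * g)
    have h' : (∫ α in (0 : ℝ)..(2 * Real.pi), ∫ β in (0 : ℝ)..Real.pi, F x α β)
        = (∫ α in (0 : ℝ)..(2 * Real.pi), ∫ β in (0 : ℝ)..Real.pi,
            Φ (T3.unip K x * g * Y α β) * ((Real.sin β : ℝ) : ℂ))
          * (starRingEnd ℂ) ((ψ x : Circle) : ℂ) := by
      rw [← intervalIntegral.integral_mul_const]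
      refine intervalIntegral.integral_congr fun α _ => ?_
      show (∫ β in (0 : ℝ)..Real.pi, F x α β) = _
      rw [← intervalIntegral.integral_mul_const]
      refine intervalIntegral.integral_congr fun β _ => ?_
      show F x α β = _
      simp only [hFdef, mul_assoc]
      ring
    rw [h', h]
    ring
  rw [hL, hswap]
  simp only [hR]
  rw [integral_const_mul]
  rfl

end whit

/-! ## 4. The leaf -/

/-- **T7.14.6b.4** `WhitInheritC`. -/
theorem whitInheritC878 (K : Type) [Field K] [NumberField K] : Rigid.WhitInheritC K := by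
  letI : MeasurableSpace (Adl K) := borel (Adl K)
  haveI : BorelSpace (Adl K) := ⟨rfl⟩
  intro ψ hψ ν D hν hDm hD hfin π S φ hφ
  haveI := hν
  haveI : SecondCountableTopology (G K) := (T1.t1Out K).locComp.2.2.2
  obtain ⟨C, hC⟩ := hφ.bdd
  have hcb := whit_cont878 hψ hfin hφ.cont hC
  refine ⟨hcb.1, ⟨_, hcb.2⟩, fun a g => whit_equiv878 hψ hD hφ.left_inv a g, ?_, ?_,
    fun w hw => whit_mean878 hψ hfin hφ.cont hC (hφ.mean_complex w hw)⟩
  · intro w z hz g
    unfold Rigid.whit
    refine integral_congr_ae (Filter.Eventually.of_forall fun x => ?_)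
    show φ (T3.unip K x * (g * z)) * conj ((ψ x : Circle) : ℂ)
      = φ (T3.unip K x * g) * conj ((ψ x : Circle) : ℂ)
    rw [← mul_assoc, hφ.arch_scalar w z hz]
  · intro w k hk g
    unfold Rigid.whit
    refine integral_congr_ae (Filter.Eventually.of_forall fun x => ?_)
    show φ (T3.unip K x * (g * k)) * conj ((ψ x : Circle) : ℂ)
      = φ (T3.unip K x * g) * conj ((ψ x : Circle) : ℂ)
    rw [← mul_assoc, hφ.arch_compact w k hk]

/-- Type check against the frozen Prop. -/
example (K : Type) [Field K] [NumberField K] : Fermat.Agent.LT.T7.Rigid.WhitInheritC K :=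
  whitInheritC878 K

end Fermat.Agent.LT.T7.H878

end
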