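import Mathlib
import Fermat.Agent.LT.T6.Spec

/-!
# Row LT, tower T7, calculus of pure tensors: ASSET `LocConv` (Mathlib + `T6/Spec` only)

OFF-MAIN (helper878).  Complete proofs, nothing assumed.  ADDITIVE (new names only, suffix `878`).

THE CONVOLUTION BY FINITE SUMS (`T6.IsConv U`, the normalisation `vol U = 1`) IS THE
CONVOLUTION INTEGRAL (`T6.convInt μ`) for a left invariant measure `μ` with `μ(U) = 1`:

    isConv_eq_convInt878 : T6.IsConv U f g χ → χ a = T6.convInt μ f g a

for an open subgroup `U` (given as a predicate closed under products and inverses), `f` right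
invariant and `g` left invariant under `U`.  No finiteness of the support is asked: the finite
set of representatives of `T6.IsConv` covers the support of the integrand.
-/

set_option autoImplicit false

open MeasureTheory

noncomputable section

namespace Fermat.Agent.LT.T7.H878

open Fermat.Agent.LT

/-- **`T6.IsConv` is `T6.convInt`** (left invariant measure, `μ(U) = 1`). -/
theorem isConv_eq_convInt878 {H : Type} [Group H] [TopologicalSpace H] [IsTopologicalGroup H]
    [MeasurableSpace H] [BorelSpace H] (μ : Measure H) [μ.IsMulLeftInvariant]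
    (U : H → Prop) (hmul : ∀ a b : H, U a → U b → U (a * b)) (hinv : ∀ a : H, U a → U a⁻¹)
    (hopen : IsOpen {u : H | U u}) (hvol : μ {u : H | U u} = 1)
    (f g χ : H → ℂ) (hf : ∀ u x : H, U u → f (x * u) = f x)
    (hg : ∀ u x : H, U u → g (u * x) = g x)
    (hχ : T6.IsConv U f g χ) (a : H) : χ a = T6.convInt μ f g a := by
  classical
  obtain ⟨R, hR1, hR2, hR3⟩ := hχ a
  -- the integrand
  set I : H → ℂ := fun y => f y * g (y⁻¹ * a) with hIdef
  have hI : ∀ y u : H, U u → I (y * u) = I y := by
    intro y u hu
    change f (y * u) * g ((y * u)⁻¹ * a) = f y * g (y⁻¹ * a)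
    rw [hf u y hu, mul_inv_rev, mul_assoc, hg u⁻¹ (y⁻¹ * a) (hinv u hu)]
  -- the cosets
  set C : H → Set H := fun h => {y : H | U (h⁻¹ * y)} with hCdef
  have hCmeas : ∀ h : H, MeasurableSet (C h) := fun h =>
    (hopen.preimage (continuous_const.mul continuous_id)).measurableSet
  have hCvol : ∀ h : H, μ (C h) = 1 := by
    intro h
    have h1 : C h = (fun y : H => h⁻¹ * y) ⁻¹' {u : H | U u} := rfl
    rw [h1, measure_preimage_mul, hvol]
  -- the integrand is the sum of its values on the cosets
  have hsum : ∀ y : H, I y = ∑ h ∈ R, (C h).indicator (fun _ => I h) y := by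
    intro y
    by_cases hex : ∃ h ∈ R, U (h⁻¹ * y)
    · obtain ⟨h₀, hh₀, hu₀⟩ := hex
      have hy : I y = I h₀ := by
        have h1 : y = h₀ * (h₀⁻¹ * y) := by rw [mul_inv_cancel_left]
        rw [h1]
        exact hI h₀ _ hu₀
      rw [Finset.sum_eq_single h₀]
      · rw [Set.indicator_of_mem (show y ∈ C h₀ from hu₀), hy]
      · intro h hh hne
        apply Set.indicator_of_notMem
        intro hyh
        apply hne
        have h2 : ∃ u : H, U u ∧ h₀ = h * u := by
          refine ⟨(h⁻¹ * y) * (h₀⁻¹ * y)⁻¹, hmul _ _ hyh (hinv _ hu₀), ?_⟩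
          group
        exact hR1 h hh h₀ hh₀ h2
      · intro hh
        exact absurd hh₀ hh
    · have h0 : I y = 0 := by
        by_contra hne
        obtain ⟨h', hh', u, hu, hyu⟩ := hR2 y hne
        apply hex
        refine ⟨h', hh', ?_⟩
        rw [hyu, inv_mul_cancel_left]
        exact hu
      rw [h0]
      symm
      apply Finset.sum_eq_zero
      intro h hh
      apply Set.indicator_of_notMem
      intro hyh
      exact hex ⟨h, hh, hyh⟩
  -- the integral
  have hint : ∀ h ∈ R, Integrable ((C h).indicator (fun _ : H => I h)) μ := by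
    intro h _
    rw [integrable_indicator_iff (hCmeas h)]
    refine integrableOn_const ?_
    rw [hCvol h]
    exact ENNReal.one_ne_top
  change χ a = ∫ y, f y * g (y⁻¹ * a) ∂μ
  have h1 : (fun y : H => f y * g (y⁻¹ * a))
      = fun y => ∑ h ∈ R, (C h).indicator (fun _ => I h) y := by
    funext y
    exact hsum y
  rw [h1, integral_finsetSum R hint, hR3]
  refine Finset.sum_congr rfl fun h _ => ?_
  rw [integral_indicator_const _ (hCmeas h)]
  have h2 : μ.real (C h) = 1 := by
    change (μ (C h)).toReal = 1
    rw [hCvol h]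
    rfl
  rw [h2, one_smul]

end Fermat.Agent.LT.T7.H878

end
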