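import Mathlib
import Fermat.Agent.LT.T7.H159.HaarSplit305
import Fermat.Agent.LT.T7.H729.OutOpen
import Fermat.Agent.LT.T7.H409.CompCont
import Fermat.Agent.LT.T7.H505.HaarSigma

/-!
# Row LT, tower T7, node T7.L2.1.H2b `ProdMtCb` (calculus of pure tensors): ASSET `PureConv`

OFF-MAIN (helper878).  Complete proofs, nothing assumed.  ADDITIVE (new names only, suffix `878`).

THE CONVOLUTION OF TWO PURE TENSORS IS A CONSTANT TIMES THE PURE TENSOR OF THE LOCAL
CONVOLUTIONS.  The constant is THE constant of `H305.HaarSplitC305` (it depends on the Haar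
measure `μ` of `GL₂(𝔸_K)`, on `μc` and on the levels `m` only, not on `S`, not on the
components).

    pureConv_of_split878 : (the splitting of `μ` on `Out_S` for ONE `S`, constant `c`) →
        T5.conv μ (pure305 S f₀ F) (pure305 S g₀ G) h
          = c * pure305 S (fun v => convInt (μv v) (f₀ v) (g₀ v))
                          (fun w => convInt μc (F w) (G w)) h
    pureConvC878 K : PureConvC878 K                           (K totally complex, closed form)
    integral_indicator_pullback878 : the abstract core (Mathlib only; serves the mirror over Q)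

The components are CONTINUOUS (the components of test functions are: locally constant at the
finite places, continuous at the infinite places); no integrability is needed (Fubini for
products of functions of the coordinates holds without it).

Ingredients (vendored byte-identical): `H159.haarSplitC159` (helper159), `OutOpen729.outOpenC729`
(helper729), `H409.compContC409` (helper409), `H505.haarSigmaC505` (helper505).
-/

set_option autoImplicit false

open AutomorphicForm IsDedekindDomain NumberField MeasureTheory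
open scoped ComplexConjugate

noncomputable section

namespace Fermat.Agent.LT.T7.H878

open Fermat.Agent.LT.H556 Fermat.Agent.LT.H556.A0 Fermat.Agent.LT.T7 Fermat.Agent.LT.T7.H305

attribute [local instance] Fermat.Agent.LT.T5.instMeasurableSpaceG

/-! ## 1. The abstract core (Mathlib only) -/

/-- **Integral of a pull-back of a product of functions of the coordinates** over a set on which
the measure splits: if the image of `μ` restricted to `O` under `p` is `c` times a product
measure, then the integral over `O` of `∏ a i ((p x).1 i) * ∏ b w ((p x).2 w)` is `c` times the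
product of the integrals.  No integrability is needed. -/
theorem integral_indicator_pullback878 {X ι κ : Type} [Fintype ι] [Fintype κ] {E : ι → Type}
    {H : Type} [MeasurableSpace X] [∀ i, MeasurableSpace (E i)] [MeasurableSpace H]
    (μ : Measure X) (μi : ∀ i, Measure (E i)) [∀ i, SigmaFinite (μi i)] (ν : Measure H)
    [SigmaFinite ν] (O : Set X) (hO : MeasurableSet O) (p : X → (∀ i, E i) × (κ → H))
    (hp : Measurable p) (c : ℝ) (hc : 0 ≤ c)
    (hsp : Measure.map p (μ.restrict O)
      = ENNReal.ofReal c • ((Measure.pi μi).prod (Measure.pi fun _ : κ => ν)))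
    (a : ∀ i, E i → ℂ) (b : κ → H → ℂ) (ha : ∀ i, Measurable (a i))
    (hb : ∀ w, Measurable (b w)) :
    ∫ x, O.indicator (fun x => (∏ i, a i ((p x).1 i)) * ∏ w, b w ((p x).2 w)) x ∂μ
      = (c : ℂ) * ((∏ i, ∫ x, a i x ∂μi i) * ∏ w, ∫ x, b w x ∂ν) := by
  have hΦ : Measurable fun q : (∀ i, E i) × (κ → H) => (∏ i, a i (q.1 i)) * ∏ w, b w (q.2 w) := by
    refine Measurable.mul (Finset.measurable_prod _ fun i _ => ?_)
      (Finset.measurable_prod _ fun w _ => ?_)
    · exact (ha i).comp ((measurable_pi_apply i).comp measurable_fst)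
    · exact (hb w).comp ((measurable_pi_apply w).comp measurable_snd)
  rw [integral_indicator hO]
  have h1 : ∫ x in O, (∏ i, a i ((p x).1 i)) * ∏ w, b w ((p x).2 w) ∂μ
      = ∫ q, (∏ i, a i (q.1 i)) * ∏ w, b w (q.2 w) ∂(Measure.map p (μ.restrict O)) :=
    (integral_map hp.aemeasurable hΦ.aestronglyMeasurable).symm
  rw [h1, hsp, integral_smul_measure, ENNReal.toReal_ofReal hc]
  rw [integral_prod_mul (μ := Measure.pi μi) (ν := Measure.pi fun _ : κ => ν)
    (fun x : ∀ i, E i => ∏ i, a i (x i)) (fun y : κ → H => ∏ w, b w (y w))]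
  rw [integral_fintype_prod_eq_prod, integral_fintype_prod_eq_prod (μ := fun _ : κ => ν) b]
  rw [Complex.real_smul]

/-! ## 2. `Out_S` is a subgroup; the components of a product -/

section OneField

variable {K : Type} [Field K] [NumberField K]

/-- Integrality at `v` is stable under products. -/
theorem isIntegralAt_mul878 (v : HeightOneSpectrum (𝓞 K)) (g h : G K)
    (hg : IsIntegralAt v g) (hh : IsIntegralAt v h) : IsIntegralAt v (g * h) := by
  intro i j
  have h1 : finComp v (g * h) i j = ∑ k, finComp v g i k * finComp v h k j := by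
    rw [T5.finComp_eq_map, T5.finComp_eq_map, T5.finComp_eq_map]
    simp only [Matrix.map_apply, Matrix.GeneralLinearGroup.coe_mul, Matrix.mul_apply, map_sum,
      map_mul]
  rw [h1]
  exact sum_mem fun k _ => mul_mem (hg i k) (hh k j)

/-- `Out_S` is stable under `(y, h) ↦ y⁻¹ h`. -/
theorem outT_inv_mul878 (S : Finset (HeightOneSpectrum (𝓞 K))) (y h : G K)
    (hy : OutT305 S y) (hh : OutT305 S h) : OutT305 S (y⁻¹ * h) := by
  intro v hv
  refine ⟨isIntegralAt_mul878 v _ _ (hy v hv).2 (hh v hv).1, ?_⟩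
  rw [mul_inv_rev, inv_inv]
  exact isIntegralAt_mul878 v _ _ (hh v hv).2 (hy v hv).1

/-- `Out_S` is stable under products. -/
theorem outT_mul878 (S : Finset (HeightOneSpectrum (𝓞 K))) (y h : G K)
    (hy : OutT305 S y) (hh : OutT305 S h) : OutT305 S (y * h) := by
  intro v hv
  refine ⟨isIntegralAt_mul878 v _ _ (hy v hv).1 (hh v hv).1, ?_⟩
  rw [mul_inv_rev]
  exact isIntegralAt_mul878 v _ _ (hh v hv).2 (hy v hv).2

/-- `Out_S` is stable under inverses. -/
theorem outT_inv878 (S : Finset (HeightOneSpectrum (𝓞 K))) (y : G K) (hy : OutT305 S y) :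
    OutT305 S y⁻¹ := by
  intro v hv
  refine ⟨(hy v hv).2, ?_⟩
  rw [inv_inv]
  exact (hy v hv).1

/-- If `y` and `y⁻¹ h` are in `Out_S`, so is `h`. -/
theorem outT_of_inv_mul878 (S : Finset (HeightOneSpectrum (𝓞 K))) (y h : G K)
    (hy : OutT305 S y) (hyh : OutT305 S (y⁻¹ * h)) : OutT305 S h := by
  have h1 := outT_mul878 S y (y⁻¹ * h) hy hyh
  rwa [mul_inv_cancel_left] at h1

/-- A pure tensor vanishes outside `Out_S`. -/
theorem pure_eq_zero878 (S : Finset (HeightOneSpectrum (𝓞 K)))
    (f₀ : ∀ v : HeightOneSpectrum (𝓞 K), GL (Fin 2) (v.adicCompletion K) → ℂ)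
    (F : InfinitePlace K → GL (Fin 2) ℂ → ℂ) (h : G K) (hh : ¬ OutT305 S h) :
    pure305 S f₀ F h = 0 := by
  classical
  change (if OutT305 S h then _ else _) = _
  rw [if_neg hh]

/-- The value of a pure tensor on `Out_S`. -/
theorem pure_eq878 (S : Finset (HeightOneSpectrum (𝓞 K)))
    (f₀ : ∀ v : HeightOneSpectrum (𝓞 K), GL (Fin 2) (v.adicCompletion K) → ℂ)
    (F : InfinitePlace K → GL (Fin 2) ℂ → ℂ) (h : G K) (hh : OutT305 S h) :
    pure305 S f₀ F h
      = (∏ v ∈ S, f₀ v (finGL305 v h)) * ∏ w : InfinitePlace K, F w (infGL305 w h) := by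
  classical
  change (if OutT305 S h then _ else _) = _
  rw [if_pos hh]

/-! ## 3. The integrand of the convolution of two pure tensors -/

/-- The local integrand of the convolution at the point `x`. -/
def convFn878 {H : Type} [Group H] (φ ψ : H → ℂ) (x : H) : H → ℂ :=
  fun y => φ y * ψ (y⁻¹ * x)

theorem continuous_convFn878 {H : Type} [Group H] [TopologicalSpace H] [IsTopologicalGroup H]
    (φ ψ : H → ℂ) (x : H) (hφ : Continuous φ) (hψ : Continuous ψ) :
    Continuous (convFn878 φ ψ x) := by
  change Continuous fun y : H => φ y * ψ (y⁻¹ * x)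
  exact hφ.mul (hψ.comp (continuous_inv.mul continuous_const))

/-- **The integrand of the convolution of two pure tensors** at a point `h ∈ Out_S` is the
pull-back of the product of the local integrands, cut off by `Out_S`. -/
theorem conv_integrand_eq878 (S : Finset (HeightOneSpectrum (𝓞 K)))
    (f₀ g₀ : ∀ v : HeightOneSpectrum (𝓞 K), GL (Fin 2) (v.adicCompletion K) → ℂ)
    (F Gc : InfinitePlace K → GL (Fin 2) ℂ → ℂ) (h : G K) (hh : OutT305 S h) (y : G K) :
    pure305 S f₀ F y * pure305 S g₀ Gc (y⁻¹ * h)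
      = Set.indicator {y : G K | OutT305 S y}
          (fun y => (∏ v : S, convFn878 (f₀ v.1) (g₀ v.1) (finGL305 v.1 h)
              ((compS305 S y).1 v)) *
            ∏ w : InfinitePlace K, convFn878 (F w) (Gc w) (infGL305 w h)
              ((compS305 S y).2 w)) y := by
  classical
  by_cases hy : OutT305 S y
  · rw [Set.indicator_of_mem (show y ∈ {y : G K | OutT305 S y} from hy)]
    rw [pure_eq878 S f₀ F y hy, pure_eq878 S g₀ Gc (y⁻¹ * h) (outT_inv_mul878 S y h hy hh)]
    change _ = (∏ v : S, (f₀ v.1 (finGL305 v.1 y) * g₀ v.1 ((finGL305 v.1 y)⁻¹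
        * finGL305 v.1 h))) *
      ∏ w : InfinitePlace K, (F w (infGL305 w y) * Gc w ((infGL305 w y)⁻¹ * infGL305 w h))
    rw [Finset.prod_coe_sort S (fun v => f₀ v (finGL305 v y) * g₀ v ((finGL305 v y)⁻¹
        * finGL305 v h))]
    rw [Finset.prod_mul_distrib, Finset.prod_mul_distrib]
    simp only [map_mul, map_inv]
    ring
  · rw [Set.indicator_of_notMem (show y ∉ {y : G K | OutT305 S y} from hy),
      pure_eq_zero878 S f₀ F y hy, zero_mul]

/-- The convolution of two pure tensors vanishes outside `Out_S`. -/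
theorem conv_pure_eq_zero878 (μ : Measure (G K)) (S : Finset (HeightOneSpectrum (𝓞 K)))
    (f₀ g₀ : ∀ v : HeightOneSpectrum (𝓞 K), GL (Fin 2) (v.adicCompletion K) → ℂ)
    (F Gc : InfinitePlace K → GL (Fin 2) ℂ → ℂ) (h : G K) (hh : ¬ OutT305 S h) :
    T5.conv μ (pure305 S f₀ F) (pure305 S g₀ Gc) h = 0 := by
  change (∫ y, pure305 S f₀ F y * pure305 S g₀ Gc (y⁻¹ * h) ∂μ) = 0
  have h0 : (fun y : G K => pure305 S f₀ F y * pure305 S g₀ Gc (y⁻¹ * h)) = fun _ => 0 := by
    funext y
    by_cases hy : OutT305 S y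
    · have hyh : ¬ OutT305 S (y⁻¹ * h) := fun hyh => hh (outT_of_inv_mul878 S y h hy hyh)
      rw [pure_eq_zero878 S g₀ Gc _ hyh, mul_zero]
    · rw [pure_eq_zero878 S f₀ F y hy, zero_mul]
  rw [h0, integral_zero]

/-! ## 4. The convolution of two pure tensors -/

/-- **PURE-CONV from the splitting of the Haar measure on `Out_S`** (ONE set `S`).  If the image
of `μ` restricted to `Out_S` under the components is `c` times the product of the local
measures, then the convolution of two pure tensors with continuous components is `c` times the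
pure tensor of the local convolutions. -/
theorem pureConv_of_split878 (μ : Measure (G K))
    (μc : @Measure (GL (Fin 2) ℂ) (borel _)) (hμc : @Measure.IsHaarMeasure _ _ _ (borel _) μc)
    (S : Finset (HeightOneSpectrum (𝓞 K)))
    (μv : ∀ v : HeightOneSpectrum (𝓞 K), @Measure (GL (Fin 2) (v.adicCompletion K)) (borel _))
    (hμv : ∀ v : HeightOneSpectrum (𝓞 K), @Measure.IsHaarMeasure _ _ _ (borel _) (μv v))
    (c : ℝ) (hc : 0 ≤ c)
    (hsp : letI : ∀ v : HeightOneSpectrum (𝓞 K),
          MeasurableSpace (GL (Fin 2) (v.adicCompletion K)) := fun _ => borel _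
      letI : MeasurableSpace (GL (Fin 2) ℂ) := borel _
      Measure.map (compS305 S) (μ.restrict {y | OutT305 S y})
        = ENNReal.ofReal c •
          ((Measure.pi fun v : S => μv v.1).prod
            (Measure.pi fun _ : InfinitePlace K => μc)))
    (f₀ g₀ : ∀ v : HeightOneSpectrum (𝓞 K), GL (Fin 2) (v.adicCompletion K) → ℂ)
    (F Gc : InfinitePlace K → GL (Fin 2) ℂ → ℂ)
    (hf₀ : ∀ v ∈ S, Continuous (f₀ v)) (hg₀ : ∀ v ∈ S, Continuous (g₀ v))
    (hF : ∀ w, Continuous (F w)) (hG : ∀ w, Continuous (Gc w)) (h : G K) :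
    T5.conv μ (pure305 S f₀ F) (pure305 S g₀ Gc) h
      = (c : ℂ) * pure305 S (fun v => @T6.convInt _ _ (borel _) (μv v) (f₀ v) (g₀ v))
          (fun w => @T6.convInt _ _ (borel _) μc (F w) (Gc w)) h := by
  classical
  letI iv : ∀ v : HeightOneSpectrum (𝓞 K),
      MeasurableSpace (GL (Fin 2) (v.adicCompletion K)) := fun _ => borel _
  letI ic : MeasurableSpace (GL (Fin 2) ℂ) := borel _
  haveI : ∀ v : HeightOneSpectrum (𝓞 K), BorelSpace (GL (Fin 2) (v.adicCompletion K)) :=
    fun _ => ⟨rfl⟩
  haveI : BorelSpace (GL (Fin 2) ℂ) := ⟨rfl⟩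
  haveI : BorelSpace (G K) := ⟨rfl⟩
  by_cases hh : OutT305 S h
  · have hσ := H505.haarSigmaC505 (K := K)
    haveI hσv : ∀ v : S, SigmaFinite (μv v.1) := fun v => hσ.1 v.1 (μv v.1) (hμv v.1)
    haveI hσc : SigmaFinite μc := hσ.2.1 μc hμc
    have hCont := H409.compContC409 (K := K)
    have hcomp : Measurable (compS305 (K := K) S) := by
      change Measurable fun y : G K =>
        ((fun v : S => finGL305 v.1 y), (fun w : InfinitePlace K => infGL305 w y))
      exact Measurable.prodMk (measurable_pi_lambda _ fun v => (hCont.1 v.1).measurable)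
        (measurable_pi_lambda _ fun w => (hCont.2 w).measurable)
    have hO : MeasurableSet {y : G K | OutT305 S y} :=
      (OutOpen729.outOpenC729 K S).measurableSet
    have ha : ∀ v : S, Measurable (convFn878 (f₀ v.1) (g₀ v.1) (finGL305 v.1 h)) := fun v =>
      (continuous_convFn878 _ _ _ (hf₀ v.1 v.2) (hg₀ v.1 v.2)).measurable
    have hb : ∀ w : InfinitePlace K, Measurable (convFn878 (F w) (Gc w) (infGL305 w h)) :=
      fun w => (continuous_convFn878 _ _ _ (hF w) (hG w)).measurable
    change (∫ y, pure305 S f₀ F y * pure305 S g₀ Gc (y⁻¹ * h) ∂μ) = _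
    rw [integral_congr_ae (Filter.Eventually.of_forall
      (conv_integrand_eq878 S f₀ g₀ F Gc h hh))]
    rw [integral_indicator_pullback878 μ (fun v : S => μv v.1) μc {y : G K | OutT305 S y} hO
      (compS305 S) hcomp c hc hsp
      (fun v : S => convFn878 (f₀ v.1) (g₀ v.1) (finGL305 v.1 h))
      (fun w => convFn878 (F w) (Gc w) (infGL305 w h)) ha hb]
    rw [pure_eq878 S _ _ h hh]
    rw [← Finset.prod_coe_sort S (fun v => @T6.convInt _ _ (borel _) (μv v) (f₀ v) (g₀ v)
      (finGL305 v h))]
    rfl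
  · rw [conv_pure_eq_zero878 μ S f₀ g₀ F Gc h hh, pure_eq_zero878 S _ _ h hh, mul_zero]

/-! ## 5. The closed form (`K` totally complex) -/

variable (K)

/-- **ASSET `PureConv`** (ONE field, totally complex).  There is a constant `c > 0` (THE constant
of `H305.HaarSplitC305` for `(μ, μc, T₀, m)`) such that for EVERY finite `S ⊇ T₀`, all local
Haar measures with `μ_v(U(m_v)) = 1` and all continuous components: the convolution of two pure
tensors is `c` times the pure tensor of the local convolutions. -/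
def PureConvC878 : Prop :=
  TotCplx K → ∀ μ : Measure (G K), μ.IsHaarMeasure →
    ∀ μc : @Measure (GL (Fin 2) ℂ) (borel _), @Measure.IsHaarMeasure _ _ _ (borel _) μc →
    ∀ (T₀ : Finset (HeightOneSpectrum (𝓞 K))) (m : HeightOneSpectrum (𝓞 K) → ℕ),
      (∀ v : HeightOneSpectrum (𝓞 K), v ∉ T₀ → m v = 0) →
    ∃ c : ℝ, 0 < c ∧
      ∀ S : Finset (HeightOneSpectrum (𝓞 K)), T₀ ⊆ S →
      ∀ μv : ∀ v : HeightOneSpectrum (𝓞 K), @Measure (GL (Fin 2) (v.adicCompletion K)) (borel _),
        (∀ v : HeightOneSpectrum (𝓞 K), IsLocHaar305 (m v) (μv v)) →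
      ∀ (f₀ g₀ : ∀ v : HeightOneSpectrum (𝓞 K), GL (Fin 2) (v.adicCompletion K) → ℂ)
        (F Gc : InfinitePlace K → GL (Fin 2) ℂ → ℂ),
        (∀ v ∈ S, Continuous (f₀ v)) → (∀ v ∈ S, Continuous (g₀ v)) →
        (∀ w, Continuous (F w)) → (∀ w, Continuous (Gc w)) →
        ∀ h : G K, T5.conv μ (pure305 S f₀ F) (pure305 S g₀ Gc) h
          = (c : ℂ) * pure305 S (fun v => @T6.convInt _ _ (borel _) (μv v) (f₀ v) (g₀ v))
              (fun w => @T6.convInt _ _ (borel _) μc (F w) (Gc w)) h

/-- `PureConv` from `HaarSplit` (same constant). -/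
theorem pureConvC_of878 (hHS : HaarSplitC305 K) : PureConvC878 K := by
  intro hK μ hμ μc hμc T₀ m hm
  obtain ⟨c, hc, hsplit⟩ := hHS hK μ hμ μc hμc T₀ m hm
  refine ⟨c, hc, ?_⟩
  intro S hS μv hμv f₀ g₀ F Gc hf₀ hg₀ hF hG h
  exact pureConv_of_split878 μ μc hμc S μv (fun v => (hμv v).1) c hc.le (hsplit S hS μv hμv)
    f₀ g₀ F Gc hf₀ hg₀ hF hG h

/-- **ASSET `PureConv`, CLOSED** (`HaarSplitC305` by helper159). -/
theorem pureConvC878 : PureConvC878 K :=
  pureConvC_of878 K (H159.haarSplitC159 (K := K))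

end OneField

end Fermat.Agent.LT.T7.H878

end
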