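import Mathlib
import Fermat.Agent.LT.T7.H563.PTSpec
import Fermat.Agent.LT.T7.H878.PureConv
import Fermat.Agent.LT.T7.H878.LocConv
import Fermat.Agent.LT.T7.H729.LocMeas
import Fermat.Agent.LT.T6.H176.InstLocal
import Fermat.Agent.LT.T7.H16.BiInvCont

/-!
# Row LT, tower T7, calculus of pure tensors: LEAF PT.1 `PT563.ConvPureC563 K` -- CLOSED

OFF-MAIN (helper878, SPARE of registry row 2799).  Complete proof, nothing assumed.

    convPureC878 (K) : PT563.ConvPureC563 K          (VERBATIM vs `T7/H563/PTSpec.lean` c4658ddd)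

Proof.  `pureConvC878` (`PureConv.lean`: the convolution of two pure tensors is `c` times the
pure tensor of the local convolution INTEGRALS, `c` = the constant of `H305.HaarSplitC305`) for
local Haar measures with `μ_v(U(m v)) = 1` (`LocMeas729.exists_locHaar729`, helper729;
`T6.H176.instLocalC176`, helper176); bi-invariant functions are continuous
(`H16.biInvContC558_16`, helper16); at the places of `T` the convolution integral is the
convolution by finite sums `T6.IsConv` (`isConv_eq_convInt878`, `LocConv.lean`).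
-/

set_option autoImplicit false

open AutomorphicForm IsDedekindDomain NumberField MeasureTheory
open scoped ComplexConjugate

noncomputable section

namespace Fermat.Agent.LT.T7.H878

open Fermat.Agent.LT.H556 Fermat.Agent.LT.H556.A0 Fermat.Agent.LT.T7 Fermat.Agent.LT.T7.H305

attribute [local instance] Fermat.Agent.LT.T5.instMeasurableSpaceG

/-- The local form: for a Haar measure with `μ(U(n)) = 1` the convolution by finite sums of
bi-`U(n)`-invariant functions is the convolution integral. -/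
theorem isConv_eq_convInt_loc878 {K : Type} [Field K] [NumberField K]
    (v : HeightOneSpectrum (𝓞 K)) (n : ℕ)
    (μ : @Measure (GL (Fin 2) (v.adicCompletion K)) (borel _)) (hμ : IsLocHaar305 n μ)
    (f g χ : GL (Fin 2) (v.adicCompletion K) → ℂ)
    (hf : T6.IsBiInv (T6.InU n) f) (hg : T6.IsBiInv (T6.InU n) g)
    (hχ : T6.IsConv (T6.InU n) f g χ) (a : GL (Fin 2) (v.adicCompletion K)) :
    χ a = @T6.convInt _ _ (borel _) μ f g a := by
  letI : MeasurableSpace (GL (Fin 2) (v.adicCompletion K)) := borel _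
  haveI : BorelSpace (GL (Fin 2) (v.adicCompletion K)) := ⟨rfl⟩
  haveI : μ.IsHaarMeasure := hμ.1
  have h1 : T6.InU n (1 : GL (Fin 2) (v.adicCompletion K)) := H16.inU_one16 n
  refine isConv_eq_convInt878 μ (T6.InU n)
    (fun a b ha hb => (T6.H420.subU n).mul_mem ha hb)
    (fun a ha => (T6.H420.subU n).inv_mem ha) (H16.isOpen_inU16 n) hμ.2 f g χ ?_ ?_ hχ a
  · intro u x hu
    have h2 := hf 1 u x h1 hu
    rwa [one_mul] at h2
  · intro u x hu
    have h2 := hg u 1 x hu h1
    rwa [mul_one] at h2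

/-- **LEAF PT.1 = CONV-PURE, CLOSED** (verbatim vs `T7/H563/PTSpec.lean`). -/
theorem convPureC878 (K : Type) [Field K] [NumberField K] : PT563.ConvPureC563 K := by
  intro hK μ hμ μc hμc T₀ m hm
  obtain ⟨c, hc, H⟩ := pureConvC878 K hK μ hμ μc hμc T₀ m hm
  refine ⟨c, hc, ?_⟩
  intro T hT f₀ g₀ χ₀ F₁ F₂ hf hg hχ hF₁ hF₂ h
  classical
  have hex : ∀ v : HeightOneSpectrum (𝓞 K),
      ∃ μv : @Measure (GL (Fin 2) (v.adicCompletion K)) (borel _), IsLocHaar305 (m v) μv :=
    fun v => LocMeas729.exists_locHaar729 (T6.H176.instLocalC176 K v) (m v)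
  choose μv hμv using hex
  have hBI := H16.biInvContC558_16 K
  rw [H T hT μv hμv f₀ g₀ F₁ F₂ (fun v hv => hBI v (m v) (f₀ v) (hf v hv).1)
    (fun v hv => hBI v (m v) (g₀ v) (hg v hv).1) (fun w => (hF₁ w).1) (fun w => (hF₂ w).1) h]
  congr 1
  by_cases hh : OutT305 T h
  · rw [pure_eq878 T _ _ h hh, pure_eq878 T _ _ h hh]
    congr 1
    refine Finset.prod_congr rfl fun v hv => ?_
    exact (isConv_eq_convInt_loc878 v (m v) (μv v) (hμv v) (f₀ v) (g₀ v) (χ₀ v) (hf v hv).1
      (hg v hv).1 (hχ v hv) (finGL305 v h)).symm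
  · rw [pure_eq_zero878 T _ _ h hh, pure_eq_zero878 T _ _ h hh]

end Fermat.Agent.LT.T7.H878

end
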