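import Mathlib
import Fermat.Agent.LT.T7.H563.PTSpec
import Fermat.Agent.LT.T7.H878.ConvPure
import Fermat.Agent.LT.T7.H379.HaarSplitQ
import Fermat.Agent.LT.T7.H325.ReContQ
import Fermat.Agent.LT.T7.H729.HaarSigmaR

/-!
# Row LT, tower T7, calculus of pure tensors: LEAF PT.2 `PT563.ConvPureQC563` -- CLOSED

OFF-MAIN (helper878, SPARE of registry row 2800).  Complete proof, nothing assumed.

    convPureQC878 : PT563.ConvPureQC563             (VERBATIM vs `T7/H563/PTSpec.lean` c4658ddd)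

Mirror over `ℚ` (ONE real place, `MQ298.pureQ298`) of `convPureC878`: the splitting of the Haar
measure of `GL₂(𝔸_ℚ)` on `Out_S` (`H379.haarSplitQC379`, helper379), the continuity of the
components (`H409.compContC409`, `H325.reContQC325`), `σ`-finiteness (`H505.haarSigmaC505`,
`HaarSigmaR729.haarSigmaRC729`), Fubini for products of functions of the coordinates, and the
local identity `T6.IsConv = T6.convInt` (`isConv_eq_convInt_loc878`).
-/

set_option autoImplicit false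

open AutomorphicForm IsDedekindDomain NumberField MeasureTheory
open scoped ComplexConjugate

noncomputable section

namespace Fermat.Agent.LT.T7.H878

open Fermat.Agent.LT.H556 Fermat.Agent.LT.H556.A0 Fermat.Agent.LT.T7 Fermat.Agent.LT.T7.H305
open Fermat.Agent.LT.T7.MQ298

attribute [local instance] Fermat.Agent.LT.T5.instMeasurableSpaceG

/-! ## 1. The abstract core with ONE extra factor (Mathlib only) -/

/-- The variant of `integral_indicator_pullback878` for a product `(∏ E i) × H`. -/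
theorem integral_indicator_pullbackQ878 {X ι : Type} [Fintype ι] {E : ι → Type}
    {H : Type} [MeasurableSpace X] [∀ i, MeasurableSpace (E i)] [MeasurableSpace H]
    (μ : Measure X) (μi : ∀ i, Measure (E i)) [∀ i, SigmaFinite (μi i)] (ν : Measure H)
    [SigmaFinite ν] (O : Set X) (hO : MeasurableSet O) (p : X → (∀ i, E i) × H)
    (hp : Measurable p) (c : ℝ) (hc : 0 ≤ c)
    (hsp : Measure.map p (μ.restrict O) = ENNReal.ofReal c • ((Measure.pi μi).prod ν))
    (a : ∀ i, E i → ℂ) (b : H → ℂ) (ha : ∀ i, Measurable (a i)) (hb : Measurable b) :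
    ∫ x, O.indicator (fun x => (∏ i, a i ((p x).1 i)) * b (p x).2) x ∂μ
      = (c : ℂ) * ((∏ i, ∫ x, a i x ∂μi i) * ∫ x, b x ∂ν) := by
  have hΦ : Measurable fun q : (∀ i, E i) × H => (∏ i, a i (q.1 i)) * b q.2 := by
    refine Measurable.mul (Finset.measurable_prod _ fun i _ => ?_) (hb.comp measurable_snd)
    exact (ha i).comp ((measurable_pi_apply i).comp measurable_fst)
  rw [integral_indicator hO]
  have h1 : ∫ x in O, (∏ i, a i ((p x).1 i)) * b (p x).2 ∂μ
      = ∫ q, (∏ i, a i (q.1 i)) * b q.2 ∂(Measure.map p (μ.restrict O)) :=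
    (integral_map hp.aemeasurable hΦ.aestronglyMeasurable).symm
  rw [h1, hsp, integral_smul_measure, ENNReal.toReal_ofReal hc]
  rw [integral_prod_mul (μ := Measure.pi μi) (ν := ν)
    (fun x : ∀ i, E i => ∏ i, a i (x i)) b]
  rw [integral_fintype_prod_eq_prod]
  rw [Complex.real_smul]

/-! ## 2. Pure tensors over `ℚ` -/

/-- A pure tensor over `ℚ` vanishes outside `Out_S`. -/
theorem pureQ_eq_zero878 (S : Finset (HeightOneSpectrum (𝓞 ℚ)))
    (f₀ : ∀ v : HeightOneSpectrum (𝓞 ℚ), GL (Fin 2) (v.adicCompletion ℚ) → ℂ)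
    (Fr : GL (Fin 2) ℝ → ℂ) (h : G ℚ) (hh : ¬ OutT305 S h) :
    pureQ298 S f₀ Fr h = 0 := by
  classical
  change (if OutT305 S h then _ else _) = _
  rw [if_neg hh]

/-- The value of a pure tensor over `ℚ` on `Out_S`. -/
theorem pureQ_eq878 (S : Finset (HeightOneSpectrum (𝓞 ℚ)))
    (f₀ : ∀ v : HeightOneSpectrum (𝓞 ℚ), GL (Fin 2) (v.adicCompletion ℚ) → ℂ)
    (Fr : GL (Fin 2) ℝ → ℂ) (h : G ℚ) (hh : OutT305 S h) :
    pureQ298 S f₀ Fr h = (∏ v ∈ S, f₀ v (finGL305 v h)) * Fr (reGLQ298 h) := by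
  classical
  change (if OutT305 S h then _ else _) = _
  rw [if_pos hh]

/-- The integrand of the convolution of two pure tensors over `ℚ` at a point of `Out_S`. -/
theorem convQ_integrand_eq878 (S : Finset (HeightOneSpectrum (𝓞 ℚ)))
    (f₀ g₀ : ∀ v : HeightOneSpectrum (𝓞 ℚ), GL (Fin 2) (v.adicCompletion ℚ) → ℂ)
    (F Gr : GL (Fin 2) ℝ → ℂ) (h : G ℚ) (hh : OutT305 S h) (y : G ℚ) :
    pureQ298 S f₀ F y * pureQ298 S g₀ Gr (y⁻¹ * h)
      = Set.indicator {y : G ℚ | OutT305 S y}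
          (fun y => (∏ v : S, convFn878 (f₀ v.1) (g₀ v.1) (finGL305 v.1 h)
              ((compSQ298 S y).1 v)) *
            convFn878 F Gr (reGLQ298 h) (compSQ298 S y).2) y := by
  classical
  by_cases hy : OutT305 S y
  · rw [Set.indicator_of_mem (show y ∈ {y : G ℚ | OutT305 S y} from hy)]
    rw [pureQ_eq878 S f₀ F y hy, pureQ_eq878 S g₀ Gr (y⁻¹ * h) (outT_inv_mul878 S y h hy hh)]
    change _ = (∏ v : S, (f₀ v.1 (finGL305 v.1 y) * g₀ v.1 ((finGL305 v.1 y)⁻¹
        * finGL305 v.1 h))) * (F (reGLQ298 y) * Gr ((reGLQ298 y)⁻¹ * reGLQ298 h))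
    rw [Finset.prod_coe_sort S (fun v => f₀ v (finGL305 v y) * g₀ v ((finGL305 v y)⁻¹
        * finGL305 v h))]
    rw [Finset.prod_mul_distrib]
    simp only [map_mul, map_inv]
    ring
  · rw [Set.indicator_of_notMem (show y ∉ {y : G ℚ | OutT305 S y} from hy),
      pureQ_eq_zero878 S f₀ F y hy, zero_mul]

/-- The convolution of two pure tensors over `ℚ` vanishes outside `Out_S`. -/
theorem convQ_pure_eq_zero878 (μ : Measure (G ℚ)) (S : Finset (HeightOneSpectrum (𝓞 ℚ)))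
    (f₀ g₀ : ∀ v : HeightOneSpectrum (𝓞 ℚ), GL (Fin 2) (v.adicCompletion ℚ) → ℂ)
    (F Gr : GL (Fin 2) ℝ → ℂ) (h : G ℚ) (hh : ¬ OutT305 S h) :
    T5.conv μ (pureQ298 S f₀ F) (pureQ298 S g₀ Gr) h = 0 := by
  change (∫ y, pureQ298 S f₀ F y * pureQ298 S g₀ Gr (y⁻¹ * h) ∂μ) = 0
  have h0 : (fun y : G ℚ => pureQ298 S f₀ F y * pureQ298 S g₀ Gr (y⁻¹ * h)) = fun _ => 0 := by
    funext y
    by_cases hy : OutT305 S y
    · have hyh : ¬ OutT305 S (y⁻¹ * h) := fun hyh => hh (outT_of_inv_mul878 S y h hy hyh)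
      rw [pureQ_eq_zero878 S g₀ Gr _ hyh, mul_zero]
    · rw [pureQ_eq_zero878 S f₀ F y hy, zero_mul]
  rw [h0, integral_zero]

/-! ## 3. The convolution of two pure tensors over `ℚ` -/

/-- **PURE-CONV over `ℚ` from the splitting of the Haar measure on `Out_S`** (ONE set `S`). -/
theorem pureConvQ_of_split878 (μ : Measure (G ℚ))
    (μr : @Measure (GL (Fin 2) ℝ) (borel _)) (hμr : @Measure.IsHaarMeasure _ _ _ (borel _) μr)
    (S : Finset (HeightOneSpectrum (𝓞 ℚ)))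
    (μv : ∀ v : HeightOneSpectrum (𝓞 ℚ), @Measure (GL (Fin 2) (v.adicCompletion ℚ)) (borel _))
    (hμv : ∀ v : HeightOneSpectrum (𝓞 ℚ), @Measure.IsHaarMeasure _ _ _ (borel _) (μv v))
    (c : ℝ) (hc : 0 ≤ c)
    (hsp : letI : ∀ v : HeightOneSpectrum (𝓞 ℚ),
          MeasurableSpace (GL (Fin 2) (v.adicCompletion ℚ)) := fun _ => borel _
      letI : MeasurableSpace (GL (Fin 2) ℝ) := borel _
      Measure.map (compSQ298 S) (μ.restrict {y | OutT305 S y})
        = ENNReal.ofReal c • ((Measure.pi fun v : S => μv v.1).prod μr))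
    (f₀ g₀ : ∀ v : HeightOneSpectrum (𝓞 ℚ), GL (Fin 2) (v.adicCompletion ℚ) → ℂ)
    (F Gr : GL (Fin 2) ℝ → ℂ)
    (hf₀ : ∀ v ∈ S, Continuous (f₀ v)) (hg₀ : ∀ v ∈ S, Continuous (g₀ v))
    (hF : Continuous F) (hG : Continuous Gr) (h : G ℚ) :
    T5.conv μ (pureQ298 S f₀ F) (pureQ298 S g₀ Gr) h
      = (c : ℂ) * pureQ298 S (fun v => @T6.convInt _ _ (borel _) (μv v) (f₀ v) (g₀ v))
          (@T6.convInt _ _ (borel _) μr F Gr) h := by
  classical
  letI iv : ∀ v : HeightOneSpectrum (𝓞 ℚ),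
      MeasurableSpace (GL (Fin 2) (v.adicCompletion ℚ)) := fun _ => borel _
  letI ic : MeasurableSpace (GL (Fin 2) ℝ) := borel _
  haveI : ∀ v : HeightOneSpectrum (𝓞 ℚ), BorelSpace (GL (Fin 2) (v.adicCompletion ℚ)) :=
    fun _ => ⟨rfl⟩
  haveI : BorelSpace (GL (Fin 2) ℝ) := ⟨rfl⟩
  haveI : BorelSpace (G ℚ) := ⟨rfl⟩
  by_cases hh : OutT305 S h
  · have hσ := H505.haarSigmaC505 (K := ℚ)
    haveI hσv : ∀ v : S, SigmaFinite (μv v.1) := fun v => hσ.1 v.1 (μv v.1) (hμv v.1)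
    haveI hσr : SigmaFinite μr := HaarSigmaR729.haarSigmaRC729.1 μr hμr
    have hCont := H409.compContC409 (K := ℚ)
    have hRe : Continuous (reGLQ298 : G ℚ → GL (Fin 2) ℝ) := H325.reContQC325
    have hcomp : Measurable (compSQ298 S) := by
      change Measurable fun y : G ℚ => ((fun v : S => finGL305 v.1 y), reGLQ298 y)
      exact Measurable.prodMk (measurable_pi_lambda _ fun v => (hCont.1 v.1).measurable)
        hRe.measurable
    have hO : MeasurableSet {y : G ℚ | OutT305 S y} :=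
      (OutOpen729.outOpenC729 ℚ S).measurableSet
    have ha : ∀ v : S, Measurable (convFn878 (f₀ v.1) (g₀ v.1) (finGL305 v.1 h)) := fun v =>
      (continuous_convFn878 _ _ _ (hf₀ v.1 v.2) (hg₀ v.1 v.2)).measurable
    have hb : Measurable (convFn878 F Gr (reGLQ298 h)) :=
      (continuous_convFn878 _ _ _ hF hG).measurable
    change (∫ y, pureQ298 S f₀ F y * pureQ298 S g₀ Gr (y⁻¹ * h) ∂μ) = _
    rw [integral_congr_ae (Filter.Eventually.of_forall
      (convQ_integrand_eq878 S f₀ g₀ F Gr h hh))]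
    rw [integral_indicator_pullbackQ878 μ (fun v : S => μv v.1) μr {y : G ℚ | OutT305 S y} hO
      (compSQ298 S) hcomp c hc hsp
      (fun v : S => convFn878 (f₀ v.1) (g₀ v.1) (finGL305 v.1 h))
      (convFn878 F Gr (reGLQ298 h)) ha hb]
    rw [pureQ_eq878 S _ _ h hh]
    rw [← Finset.prod_coe_sort S (fun v => @T6.convInt _ _ (borel _) (μv v) (f₀ v) (g₀ v)
      (finGL305 v h))]
    rfl
  · rw [convQ_pure_eq_zero878 μ S f₀ g₀ F Gr h hh, pureQ_eq_zero878 S _ _ h hh, mul_zero]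

/-- **LEAF PT.2 = CONV-PURE over `ℚ`, CLOSED** (verbatim vs `T7/H563/PTSpec.lean`). -/
theorem convPureQC878 : PT563.ConvPureQC563 := by
  intro μ hμ μr hμr T₀ m hm
  obtain ⟨c, hc, hsplit⟩ := H379.haarSplitQC379 μ hμ μr hμr T₀ m hm
  refine ⟨c, hc, ?_⟩
  intro T hT f₀ g₀ χ₀ F₁ F₂ hf hg hχ hF₁ _ hF₂ _ h
  classical
  have hex : ∀ v : HeightOneSpectrum (𝓞 ℚ),
      ∃ μv : @Measure (GL (Fin 2) (v.adicCompletion ℚ)) (borel _), IsLocHaar305 (m v) μv :=
    fun v => LocMeas729.exists_locHaar729 (T6.H176.instLocalC176 ℚ v) (m v)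
  choose μv hμv using hex
  have hBI := H16.biInvContC558_16 ℚ
  rw [pureConvQ_of_split878 μ μr hμr T μv (fun v => (hμv v).1) c hc.le (hsplit T hT μv hμv)
    f₀ g₀ F₁ F₂ (fun v hv => hBI v (m v) (f₀ v) (hf v hv).1)
    (fun v hv => hBI v (m v) (g₀ v) (hg v hv).1) hF₁ hF₂ h]
  congr 1
  by_cases hh : OutT305 T h
  · rw [pureQ_eq878 T _ _ h hh, pureQ_eq878 T _ _ h hh]
    congr 1
    refine Finset.prod_congr rfl fun v hv => ?_
    exact (isConv_eq_convInt_loc878 v (m v) (μv v) (hμv v) (f₀ v) (g₀ v) (χ₀ v) (hf v hv).1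
      (hg v hv).1 (hχ v hv) (finGL305 v h)).symm
  · rw [pureQ_eq_zero878 T _ _ h hh, pureQ_eq_zero878 T _ _ h hh]

end Fermat.Agent.LT.T7.H878

end
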